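import Mathlib
import Fermat.Agent.S17.Cube.Defs

/-!
# S17, frame: abstract linear algebra on `plu` (helper23's Pluecker vector)

* `LA_plu_mul_right`   : `plu (B * T) J = ∑ I, plu B I * ∏ a, T (I a) (J a)` (Cauchy-Binet, tensor form)
* `LA_plu_mul_left`    : `plu (g * B) = det g • plu B`
* `LA_plu_ne_zero_iff` : `plu B ≠ 0 ↔` the rows are linearly independent
* (A1) `LA_logHeight_eq_of_span`
* (A3) `LA_logHeight_mul_right`
* (CTR) `LA_logHeight_ctr_le`
-/

set_option autoImplicit false

open Matrix Finset Height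

namespace Fermat.Agent.S17Lib

section ring

variable {R : Type*} [CommRing R] {n ι κ : Type*} [Fintype n] [DecidableEq n]

theorem LA_plu_apply (B : Matrix n ι R) (I : n → ι) : plu B I = (B.submatrix id I).det := rfl

theorem LA_det_mul_expand [Fintype ι] (W : Matrix n ι R) (T : Matrix ι n R) :
    (W * T).det = ∑ I : n → ι, plu W I * ∏ a, T (I a) a := by
  classical
  rw [Matrix.det_apply']
  have h1 : ∀ σ : Equiv.Perm n, ∏ a, (W * T) (σ a) a =
      ∑ I : n → ι, ∏ a, (W (σ a) (I a) * T (I a) a) := by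
    intro σ
    simp only [Matrix.mul_apply]
    rw [Finset.prod_univ_sum]
    simp [Fintype.piFinset_univ]
  simp only [h1, Finset.mul_sum]
  rw [Finset.sum_comm]
  refine Finset.sum_congr rfl (fun I _ => ?_)
  rw [LA_plu_apply, Matrix.det_apply', Finset.sum_mul]
  refine Finset.sum_congr rfl (fun σ _ => ?_)
  simp only [Matrix.submatrix_apply, id, Finset.prod_mul_distrib]
  ring

/-- Cauchy-Binet in tensor form -/
theorem LA_plu_mul_right [Fintype ι] (B : Matrix n ι R) (T : Matrix ι κ R) (J : n → κ) :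
    plu (B * T) J = ∑ I : n → ι, plu B I * ∏ a, T (I a) (J a) := by
  have h : (B * T).submatrix id J = B * T.submatrix id J := by
    ext a b
    simp [Matrix.mul_apply]
  rw [LA_plu_apply, h, LA_det_mul_expand]
  rfl

theorem LA_plu_mul_left (g : Matrix n n R) (B : Matrix n ι R) : plu (g * B) = g.det • plu B := by
  funext I
  have : (g * B).submatrix id I = g * B.submatrix id I := by
    ext a b
    simp [Matrix.mul_apply]
  rw [LA_plu_apply, this, Matrix.det_mul]
  rfl

end ring

section field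

variable {K : Type*} [Field K] {n ι κ : Type*} [Fintype n] [DecidableEq n]

theorem LA_exists_right_inverse [Fintype ι] [Fintype κ] [DecidableEq ι]
    [DecidableEq κ] (M : Matrix ι κ K) (h : Function.Injective (fun x : ι → K => x ᵥ* M)) :
    ∃ L : Matrix κ ι K, M * L = 1 := by
  have hker : LinearMap.ker M.vecMulLinear = ⊥ := LinearMap.ker_eq_bot.mpr h
  obtain ⟨g, hg⟩ := M.vecMulLinear.exists_leftInverse_of_injective hker
  refine ⟨Matrix.of (fun j i => g (Pi.single j 1) i), ?_⟩
  have h1 : ∀ y : κ → K, y ᵥ* (Matrix.of (fun j i => g (Pi.single j 1) i)) = g y := by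
    intro y
    have hy : y = ∑ j, y j • (Pi.single j (1 : K) : κ → K) := by
      funext a
      simp [Finset.sum_apply, Pi.single_apply]
    conv_rhs => rw [hy, map_sum]
    funext i
    simp [Matrix.vecMul, dotProduct, Finset.sum_apply]
  ext i i'
  have h2 : (M * Matrix.of (fun j i => g (Pi.single j 1) i)) i =
      (M i) ᵥ* (Matrix.of (fun j i => g (Pi.single j 1) i)) := by
    funext a
    simp [Matrix.mul_apply, Matrix.vecMul, dotProduct]
  have h3 : M i = M.vecMulLinear (Pi.single i 1) := by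
    funext a
    simp [Matrix.vecMul, dotProduct, Pi.single_apply]
  have h4 : g (M i) = Pi.single i 1 := by
    rw [h3]
    exact congrArg (fun F : (ι → K) →ₗ[K] (ι → K) => F (Pi.single i 1)) hg
  rw [show (M * Matrix.of (fun j i => g (Pi.single j 1) i)) i i' =
    ((M * Matrix.of (fun j i => g (Pi.single j 1) i)) i) i' from rfl, h2, h1, h4]
  simp [Matrix.one_apply, Pi.single_apply, eq_comm]

theorem LA_plu_ne_zero [Fintype ι] [DecidableEq ι] (B : Matrix n ι K)
    (hB : LinearIndependent K B.row) : plu B ≠ 0 := by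
  intro h0
  have hinj : Function.Injective (fun x : n → K => x ᵥ* B) :=
    (Matrix.vecMul_injective_iff (M := B)).mpr hB
  obtain ⟨L, hL⟩ := LA_exists_right_inverse B hinj
  have h := LA_det_mul_expand B L
  rw [hL, h0] at h
  simp at h

theorem LA_linearIndependent_of_plu_ne_zero (B : Matrix n ι K) (h : plu B ≠ 0) :
    LinearIndependent K B.row := by
  obtain ⟨I, hI⟩ := Function.ne_iff.mp h
  have hdet : (B.submatrix id I).det ≠ 0 := hI
  have hli : LinearIndependent K (B.submatrix id I).row :=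
    Matrix.linearIndependent_rows_of_det_ne_zero hdet
  -- the rows of the submatrix are images of the rows of `B` under a linear map
  let π : (ι → K) →ₗ[K] (n → K) := LinearMap.funLeft K K I
  have : (B.submatrix id I).row = π ∘ B.row := by
    funext a b
    rfl
  rw [this] at hli
  exact LinearIndependent.of_comp π hli

theorem LA_plu_ne_zero_iff [Fintype ι] [DecidableEq ι] (B : Matrix n ι K) :
    plu B ≠ 0 ↔ LinearIndependent K B.row :=
  ⟨LA_linearIndependent_of_plu_ne_zero B, LA_plu_ne_zero B⟩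

/-- if the rows of `B'` lie in the span of the rows of `B`, then `B' = g * B` -/
theorem LA_exists_mul_of_span {m : Type*} (B : Matrix n ι K) (B' : Matrix m ι K)
    (h : ∀ a, B' a ∈ Submodule.span K (Set.range B.row)) : ∃ g : Matrix m n K, B' = g * B := by
  have h1 : ∀ a, ∃ c : n → K, ∑ i, c i • B.row i = B' a := fun a =>
    (Submodule.mem_span_range_iff_exists_fun K).mp (h a)
  choose c hc using h1
  refine ⟨Matrix.of c, ?_⟩
  ext a j
  rw [← hc a]
  simp [Matrix.mul_apply, Finset.sum_apply]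

end field

section height

variable {n ι κ : Type*} [Fintype n] [DecidableEq n]

/-- (A1), one-sided hypothesis -/
theorem LA_logHeight_eq_of_mem_span [Finite ι] (B B' : Matrix n ι ℚ) (hB' : plu B' ≠ 0)
    (h : ∀ a, B' a ∈ Submodule.span ℚ (Set.range B.row)) :
    logHeight (plu B') = logHeight (plu B) := by
  obtain ⟨g, rfl⟩ := LA_exists_mul_of_span B B' h
  rw [LA_plu_mul_left] at hB' ⊢
  have hg : g.det ≠ 0 := by
    intro h0
    rw [h0, zero_smul] at hB'
    exact hB' rfl
  exact logHeight_smul_eq_logHeight _ hg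

/-- **(A1)** two independent families with the same span have the same Pluecker height -/
theorem LA_logHeight_eq_of_span [Fintype ι] [DecidableEq ι] (B B' : Matrix n ι ℚ)
    (hB' : LinearIndependent ℚ B'.row)
    (h : Submodule.span ℚ (Set.range B'.row) ≤ Submodule.span ℚ (Set.range B.row)) :
    logHeight (plu B') = logHeight (plu B) :=
  LA_logHeight_eq_of_mem_span B B' (LA_plu_ne_zero B' hB')
    (fun a => h (Submodule.subset_span ⟨a, rfl⟩))

/-- upper bound for a fixed linear map -/
theorem LA_logHeight_mul_right_le [Fintype ι] [Finite κ] (T : Matrix ι κ ℚ) :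
    ∃ C : ℝ, ∀ B : Matrix n ι ℚ, logHeight (plu (B * T)) ≤ logHeight (plu B) + C := by
  refine ⟨totalWeight ℚ * Real.log (Nat.card (n → ι)) +
    logHeight (fun x : (n → κ) × (n → ι) => ∏ a, T (x.2 a) (x.1 a)), fun B => ?_⟩
  have h := logHeight_linearMap_apply_le
    (fun x : (n → κ) × (n → ι) => ∏ a, T (x.2 a) (x.1 a)) (plu B)
  have e : plu (B * T) = fun J => ∑ I : n → ι, (∏ a, T (I a) (J a)) * plu B I := by
    funext J
    rw [LA_plu_mul_right]
    exact Finset.sum_congr rfl (fun I _ => mul_comm _ _)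
  rw [e]
  linarith

/-- **(A3)** a fixed injective linear map changes the Pluecker height by `O(1)` -/
theorem LA_logHeight_mul_right [Fintype ι] [Fintype κ] [DecidableEq ι] [DecidableEq κ]
    (T : Matrix ι κ ℚ) (hT : Function.Injective (fun x : ι → ℚ => x ᵥ* T)) :
    ∃ C : ℝ, ∀ B : Matrix n ι ℚ, |logHeight (plu (B * T)) - logHeight (plu B)| ≤ C := by
  obtain ⟨S, hS⟩ := LA_exists_right_inverse T hT
  obtain ⟨C₁, h₁⟩ := LA_logHeight_mul_right_le (n := n) T
  obtain ⟨C₂, h₂⟩ := LA_logHeight_mul_right_le (n := n) S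
  refine ⟨max C₁ C₂, fun B => ?_⟩
  have a1 := h₁ B
  have a2 := h₂ (B * T)
  rw [Matrix.mul_assoc, hS, Matrix.mul_one] at a2
  rw [abs_le]
  constructor
  · have := le_max_right C₁ C₂
    linarith
  · have := le_max_left C₁ C₂
    linarith

end height

section ctr

variable {k : ℕ} {ι : Type*}

/-- contraction of a Pluecker vector by a functional: the determinant identity -/
theorem LA_ctr_det {R : Type*} [CommRing R] [Fintype ι] (lam : ι → R) (w₀ : ι → R)
    (B' : Matrix (Fin k) ι R) (h0 : ∀ a, ∑ i, lam i * B' a i = 0) (I' : Fin k → ι) :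
    ∑ i, lam i * plu (Matrix.of (Fin.cons w₀ B' : Fin (k + 1) → ι → R)) (Fin.cons i I') =
      (∑ i, lam i * w₀ i) * plu B' I' := by
  have h1 : ∀ i : ι, plu (Matrix.of (Fin.cons w₀ B' : Fin (k + 1) → ι → R)) (Fin.cons i I') =
      ∑ a : Fin (k + 1), (-1) ^ (a : ℕ) * (Fin.cons w₀ B' : Fin (k + 1) → ι → R) a i *
        ((Matrix.of (Fin.cons w₀ B' : Fin (k + 1) → ι → R)).submatrix a.succAbove I').det := by
    intro i
    rw [LA_plu_apply, Matrix.det_succ_column_zero]
    refine Finset.sum_congr rfl (fun a _ => ?_)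
    congr 1
  simp only [h1, Finset.mul_sum]
  rw [Finset.sum_comm]
  rw [Fin.sum_univ_succ]
  have h2 : ∀ a : Fin k, ∑ i, lam i * ((-1) ^ ((a.succ : Fin (k + 1)) : ℕ) *
      (Fin.cons w₀ B' : Fin (k + 1) → ι → R) a.succ i *
        ((Matrix.of (Fin.cons w₀ B' : Fin (k + 1) → ι → R)).submatrix a.succ.succAbove I').det)
      = 0 := by
    intro a
    have : ∀ i, lam i * ((-1) ^ ((a.succ : Fin (k + 1)) : ℕ) *
      (Fin.cons w₀ B' : Fin (k + 1) → ι → R) a.succ i *
        ((Matrix.of (Fin.cons w₀ B' : Fin (k + 1) → ι → R)).submatrix a.succ.succAbove I').det)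
        = (lam i * B' a i) * ((-1) ^ ((a.succ : Fin (k + 1)) : ℕ) *
        ((Matrix.of (Fin.cons w₀ B' : Fin (k + 1) → ι → R)).submatrix a.succ.succAbove I').det) := by
      intro i
      have cs : (Fin.cons w₀ B' : Fin (k + 1) → ι → R) a.succ i = B' a i := rfl
      rw [cs]
      ring
    simp only [this]
    rw [← Finset.sum_mul, h0, zero_mul]
  simp only [h2, Finset.sum_const_zero, add_zero]
  have h3 : (Matrix.of (Fin.cons w₀ B' : Fin (k + 1) → ι → R)).submatrix (Fin.succAbove 0) I' =
      B'.submatrix id I' := by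
    ext a b
    rfl
  rw [h3, Finset.sum_mul]
  refine Finset.sum_congr rfl (fun i _ => ?_)
  have c0 : (Fin.cons w₀ B' : Fin (k + 1) → ι → R) 0 i = w₀ i := rfl
  simp only [Fin.val_zero, pow_zero, one_mul]
  rw [LA_plu_apply, c0]
  ring

/-- **(CTR)** `W' = W ∩ ker lam` of codimension one: `H(W') ≤ H(W) + C_lam` -/
theorem LA_logHeight_ctr_le [Fintype ι] (lam : ι → ℚ) :
    ∃ C : ℝ, ∀ (B : Matrix (Fin (k + 1)) ι ℚ) (B' : Matrix (Fin k) ι ℚ), plu B' ≠ 0 →
      (∀ a, B' a ∈ Submodule.span ℚ (Set.range B.row)) → (∀ a, ∑ i, lam i * B' a i = 0) →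
      (∃ a, ∑ i, lam i * B a i ≠ 0) → logHeight (plu B') ≤ logHeight (plu B) + C := by
  classical
  refine ⟨totalWeight ℚ * Real.log (Nat.card (Fin (k + 1) → ι)) +
    logHeight (fun x : (Fin k → ι) × (Fin (k + 1) → ι) =>
      if Fin.tail x.2 = x.1 then lam (x.2 0) else 0), fun B B' hB' hsp h0 ⟨a₀, ha₀⟩ => ?_⟩
  have hlin := logHeight_linearMap_apply_le (fun x : (Fin k → ι) × (Fin (k + 1) → ι) =>
      if Fin.tail x.2 = x.1 then lam (x.2 0) else 0) (plu B)
  -- the contraction as a sum over `ι`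
  have hctr : ∀ (y : (Fin (k + 1) → ι) → ℚ) (I' : Fin k → ι),
      ∑ I : Fin (k + 1) → ι, (if Fin.tail I = I' then lam (I 0) else 0) * y I =
        ∑ i, lam i * y (Fin.cons i I') := by
    intro y I'
    rw [← (Fin.consEquiv (fun _ : Fin (k + 1) => ι)).sum_comp, Fintype.sum_prod_type]
    refine Finset.sum_congr rfl (fun i _ => ?_)
    rw [Finset.sum_eq_single I']
    · simp [Fin.consEquiv]
    · intro J _ hJ
      simp [Fin.consEquiv, hJ]
    · intro h
      exact absurd (Finset.mem_univ _) h
  -- the adapted basis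
  have hsp' : ∀ a, (Matrix.of (Fin.cons (B a₀) B' : Fin (k + 1) → ι → ℚ)) a ∈
      Submodule.span ℚ (Set.range B.row) := by
    intro a
    refine Fin.cases ?_ (fun a' => ?_) a
    · exact Submodule.subset_span ⟨a₀, rfl⟩
    · exact hsp a'
  obtain ⟨g, hg⟩ := LA_exists_mul_of_span B _ hsp'
  have hid := LA_ctr_det lam (B a₀) B' h0
  rw [hg, LA_plu_mul_left] at hid
  have hg0 : g.det ≠ 0 := by
    intro hz
    obtain ⟨I', hI'⟩ := Function.ne_iff.mp hB'
    have := hid I'
    rw [hz] at this
    simp only [zero_smul, Pi.zero_apply, mul_zero, Finset.sum_const_zero] at this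
    rcases mul_eq_zero.mp this.symm with h | h
    · exact ha₀ h
    · exact hI' h
  have hfin : plu B' = (g.det / (∑ i, lam i * B a₀ i)) •
      (fun I' : Fin k → ι => ∑ I : Fin (k + 1) → ι,
        (if Fin.tail I = I' then lam (I 0) else 0) * plu B I) := by
    funext I'
    have := hid I'
    simp only [Pi.smul_apply, smul_eq_mul] at this ⊢
    rw [hctr]
    field_simp
    rw [mul_comm, ← this, Finset.mul_sum]
    exact Finset.sum_congr rfl (fun i _ => by ring)
  rw [hfin, logHeight_smul_eq_logHeight _ (div_ne_zero hg0 ha₀)]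
  linarith

end ctr

end Fermat.Agent.S17Lib
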