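import Fermat.Agent.S17.Frame.Inf

/-!
# S17 FRAME-CURVE, part 2: the rational Riemann-Roch spaces `ratL N D ⊆ ℚ((q))`.
-/

set_option autoImplicit false
set_option synthInstance.maxHeartbeats 400000
set_option linter.unusedSectionVars false

open AlgebraicCurve ModularCurve
  Fermat.Agent.S24Lib Fermat.Agent.FFLib Fermat.Agent.S18Lib Fermat.Agent.S28Lib Fermat.Agent.ESLib

namespace Fermat.Agent.S17Lib

noncomputable section

/-- the embedding `ℚ((q)) → ℚ̄((q))` -/
abbrev cE : LaurentSeries ℚ →+* LaurentSeries Qb := coeffMap (algebraMap ℚ Qb)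

theorem cE_injective : Function.Injective cE := by
  intro a b h
  ext n
  have := congrArg (fun g : LaurentSeries Qb => g.coeff n) h
  simpa [coeffMap_coeff] using this

theorem cE_smul (a : ℚ) (r : LaurentSeries ℚ) : cE (a • r) = (algebraMap ℚ Qb a) • cE r := by
  ext n
  simp [coeffMap_coeff]

theorem cE_sum {ι : Type*} (s : Finset ι) (a : ι → ℚ) (r : ι → LaurentSeries ℚ) :
    cE (∑ i ∈ s, a i • r i) = ∑ i ∈ s, (algebraMap ℚ Qb (a i)) • cE (r i) := by
  rw [map_sum]
  exact Finset.sum_congr rfl fun i _ => cE_smul _ _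

theorem coeff_sum' {R ι : Type*} [Semiring R] (s : Finset ι) (f : ι → LaurentSeries R) (m : ℤ) :
    (∑ i ∈ s, f i).coeff m = ∑ i ∈ s, (f i).coeff m := by
  classical
  induction s using Finset.induction_on with
  | empty => simp
  | insert a s ha ih => rw [Finset.sum_insert ha, Finset.sum_insert ha, HahnSeries.coeff_add, ih]

/-- linear independence is preserved by extension of the coefficient field -/
theorem linearIndependent_cE {ι : Type*} {r : ι → LaurentSeries ℚ} (hr : LinearIndependent ℚ r) :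
    LinearIndependent Qb (fun i => cE (r i)) := by
  classical
  rw [linearIndependent_iff'] at hr ⊢
  intro s g hg i hi
  rw [← Module.forall_dual_apply_eq_zero_iff ℚ]
  intro ψ
  have h1 : ∑ j ∈ s, ψ (g j) • r j = 0 := by
    ext m
    have h2 := congrArg (fun z : LaurentSeries Qb => ψ (z.coeff m)) hg
    simp only [coeff_sum', HahnSeries.coeff_smul, coeffMap_coeff, HahnSeries.coeff_zero, map_zero,
      map_sum, smul_eq_mul] at h2 ⊢
    rw [← h2]
    refine Finset.sum_congr rfl fun j _ => ?_
    have : g j * algebraMap ℚ Qb ((r j).coeff m) = (r j).coeff m • g j := by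
      rw [Algebra.smul_def, mul_comm]
    rw [this, map_smul, smul_eq_mul, mul_comm]
  exact hr s (fun j => ψ (g j)) h1 i hi

variable (N : ℕ) [NeZero N]

/-- the inclusion `FB N → ℚ̄((q))` as a linear map (for the Hahn series module structure) -/
def embL : FB N →ₗ[Qb] LaurentSeries Qb where
  toFun f := (f : LaurentSeries Qb)
  map_add' _ _ := rfl
  map_smul' c f := by
    show ((c • f : FB N) : LaurentSeries Qb) = c • (f : LaurentSeries Qb)
    rw [IntermediateField.coe_smul, Algebra.smul_def]
    ext n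
    simp [algebraMap_eq_C]

/-- the image of `L(D)` in `ℚ̄((q))` -/
def LS (D : Divisor Qb (FB N)) : Submodule Qb (LaurentSeries Qb) :=
  (riemannRochSpace D).map (embL N)

theorem mem_LS {D : Divisor Qb (FB N)} {w : LaurentSeries Qb} :
    w ∈ LS N D ↔ ∃ f ∈ riemannRochSpace D, ((f : FB N) : LaurentSeries Qb) = w := by
  rw [LS, Submodule.mem_map]
  rfl

instance finiteDimensional_LS (D : Divisor Qb (FB N)) : FiniteDimensional Qb (LS N D) := by
  have := finiteDimensional_L (isFF_FB N) D
  unfold LS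
  infer_instance

theorem finrank_LS (D : Divisor Qb (FB N)) : Module.finrank Qb (LS N D) = FFLib.ell D := by
  unfold LS FFLib.ell
  exact (LinearEquiv.finrank_eq (Submodule.equivMapOfInjective (embL N) Subtype.val_injective _)).symm

theorem smul_mem_L (g : SemilinearAut Qb (FB N)) {D : Divisor Qb (FB N)} {f : FB N}
    (hf : f ∈ riemannRochSpace D) : g • f ∈ riemannRochSpace (g • D) := by
  rw [mem_L_iff] at hf ⊢
  intro v
  rcases hf (g⁻¹ • v) with h0 | h0
  · left; rw [h0]; simp
  · right
    rw [SemilinearAut.divisor_smul_apply]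
    have h1 := SemilinearAut.ord_smul g (g⁻¹ • v) f
    rw [smul_inv_smul] at h1
    rw [h1]
    exact h0

theorem LS_stable {D : Divisor Qb (FB N)} (hD : IsRatDiv N D) (σ : GQ) (w : LaurentSeries Qb)
    (hw : w ∈ LS N D) : coeffMap (σ : Qb →+* Qb) w ∈ LS N D := by
  obtain ⟨f, hf, rfl⟩ := (mem_LS N).mp hw
  refine (mem_LS N).mpr ⟨gS N σ • f, ?_, rfl⟩
  have := smul_mem_L N (gS N σ) hf
  rwa [hD σ] at this

/-- the rational points of `L(D)` -/
def ratL (D : Divisor Qb (FB N)) : Submodule ℚ (LaurentSeries ℚ) where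
  carrier := {r | cE r ∈ LS N D}
  zero_mem' := by simp
  add_mem' := by
    intro a b ha hb
    simp only [Set.mem_ofPred_eq] at ha hb ⊢
    rw [map_add]
    exact Submodule.add_mem _ ha hb
  smul_mem' := by
    intro c r hr
    simp only [Set.mem_ofPred_eq] at hr ⊢
    rw [cE_smul]
    exact Submodule.smul_mem _ _ hr

theorem mem_ratL {D : Divisor Qb (FB N)} {r : LaurentSeries ℚ} :
    r ∈ ratL N D ↔ cE r ∈ LS N D := Iff.rfl

theorem ratL_mono {D D' : Divisor Qb (FB N)} (h : D ≤ D') : ratL N D ≤ ratL N D' := by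
  intro r hr
  obtain ⟨f, hf, hfr⟩ := (mem_LS N).mp hr
  exact (mem_LS N).mpr ⟨f, L_mono h hf, hfr⟩

/-- a rational pivot basis of `ratL N D` -/
theorem exists_ratL_basis {D : Divisor Qb (FB N)} (hD : IsRatDiv N D) :
    ∃ r : Fin (FFLib.ell D) → LaurentSeries ℚ, (∀ i, r i ∈ ratL N D) ∧ LinearIndependent ℚ r ∧
      Submodule.span ℚ (Set.range r) = ratL N D := by
  classical
  obtain ⟨n, b, r, hb, hr⟩ := exists_rat_basis (LS N D) (LS_stable N hD)
  have hmem : ∀ i, r i ∈ ratL N D := fun i => by
    rw [mem_ratL, hr]; exact (b i).2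
  have hli : LinearIndependent ℚ r := by
    rw [Fintype.linearIndependent_iff]
    intro a ha i
    have h1 : ∑ j, (algebraMap ℚ Qb (a j)) • b j = 0 := by
      apply Subtype.ext
      have h2 := congrArg cE ha
      rw [cE_sum, map_zero] at h2
      rw [Submodule.coe_sum]
      simp only [Submodule.coe_smul, Submodule.coe_zero, ← hr]
      exact h2
    have h3 := Fintype.linearIndependent_iff.mp b.linearIndependent _ h1 i
    exact (map_eq_zero _).mp h3
  have hspan : Submodule.span ℚ (Set.range r) = ratL N D := by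
    apply le_antisymm
    · rw [Submodule.span_le]
      rintro _ ⟨i, rfl⟩
      exact hmem i
    · intro s hs
      have h1 : s = ∑ j, s.coeff (n j) • r j := by
        apply cE_injective
        rw [cE_sum]
        have h2 := b.sum_repr ⟨cE s, hs⟩
        have h3 := congrArg Subtype.val h2
        rw [Submodule.coe_sum] at h3
        simp only [Submodule.coe_smul, pivot_repr n b hb, coeffMap_coeff, ← hr] at h3
        exact h3.symm
      rw [h1]
      exact Submodule.sum_mem _ fun j _ =>
        Submodule.smul_mem _ _ (Submodule.subset_span ⟨j, rfl⟩)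
  have he : Module.finrank Qb (LS N D) = FFLib.ell D := finrank_LS N D
  refine ⟨fun i => r (Fin.cast he.symm i), fun i => hmem _, ?_, ?_⟩
  · exact hli.comp _ (Fin.cast_injective _)
  · rw [← hspan]
    congr 1
    ext x
    constructor
    · rintro ⟨i, rfl⟩; exact ⟨_, rfl⟩
    · rintro ⟨i, rfl⟩; exact ⟨Fin.cast he i, by simp⟩

theorem finiteDimensional_ratL {D : Divisor Qb (FB N)} (hD : IsRatDiv N D) :
    FiniteDimensional ℚ (ratL N D) := by
  obtain ⟨r, -, -, hs⟩ := exists_ratL_basis N hD
  rw [← hs]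
  exact FiniteDimensional.span_of_finite ℚ (Set.finite_range r)

theorem finrank_ratL {D : Divisor Qb (FB N)} (hD : IsRatDiv N D) :
    Module.finrank ℚ (ratL N D) = FFLib.ell D := by
  obtain ⟨r, -, hli, hs⟩ := exists_ratL_basis N hD
  rw [← hs, finrank_span_eq_card hli, Fintype.card_fin]

/-- `ℚ̄`-span of the rational points -/
theorem span_cE_ratL {D : Divisor Qb (FB N)} (hD : IsRatDiv N D) :
    Submodule.span Qb (cE '' (ratL N D : Set (LaurentSeries ℚ))) = LS N D := by
  obtain ⟨r, hm, hli, hs⟩ := exists_ratL_basis N hD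
  have h1 : Submodule.span Qb (Set.range fun i => cE (r i)) ≤
      Submodule.span Qb (cE '' (ratL N D : Set (LaurentSeries ℚ))) := by
    apply Submodule.span_mono
    rintro _ ⟨i, rfl⟩
    exact ⟨r i, hm i, rfl⟩
  have h2 : Submodule.span Qb (cE '' (ratL N D : Set (LaurentSeries ℚ))) ≤ LS N D := by
    rw [Submodule.span_le]
    rintro _ ⟨s, hs', rfl⟩
    exact hs'
  have h3 : Module.finrank Qb (Submodule.span Qb (Set.range fun i => cE (r i))) = FFLib.ell D := by
    rw [finrank_span_eq_card (linearIndependent_cE hli), Fintype.card_fin]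
  apply le_antisymm h2
  have h4 : Submodule.span Qb (Set.range fun i => cE (r i)) = LS N D :=
    Submodule.eq_of_le_of_finrank_le (h1.trans h2) (by rw [h3, finrank_LS])
  rw [← h4]
  exact h1

theorem ratL_mul {D D' : Divisor Qb (FB N)} {r r' : LaurentSeries ℚ} (hr : r ∈ ratL N D)
    (hr' : r' ∈ ratL N D') : r * r' ∈ ratL N (D + D') := by
  obtain ⟨f, hf, hfr⟩ := (mem_LS N).mp hr
  obtain ⟨f', hf', hfr'⟩ := (mem_LS N).mp hr'
  refine (mem_LS N).mpr ⟨f * f', ?_, ?_⟩
  · rw [mem_L_iff] at hf hf' ⊢
    intro v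
    have := D2.ge_mul v (hf v) (hf' v)
    rwa [Finsupp.add_apply, neg_add]
  · rw [map_mul, ← hfr, ← hfr']
    rfl

end

end Fermat.Agent.S17Lib
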