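import Mathlib

/-!
# S17, frame (linear algebra): Pluecker vectors indexed by all maps, Cauchy-Binet
-/

set_option autoImplicit false

open Matrix Finset

namespace Fermat.Agent.S17Lib

variable {R : Type*} [CommRing R] {k : ℕ} {ι κ τ : Type*}

/-- the Pluecker vector of a `k × ι` matrix, indexed by ALL maps `Fin k → ι` -/
def cbPlu (B : Matrix (Fin k) ι R) : (Fin k → ι) → R := fun I => (B.submatrix id I).det

theorem CB_plu_apply (B : Matrix (Fin k) ι R) (I : Fin k → ι) : cbPlu B I = (B.submatrix id I).det := rfl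

theorem CB_plu_mul_left (g : Matrix (Fin k) (Fin k) R) (B : Matrix (Fin k) ι R) :
    cbPlu (g * B) = g.det • cbPlu B := by
  funext I
  have : (g * B).submatrix id I = g * B.submatrix id I := by
    ext a b
    simp [Matrix.mul_apply]
  rw [CB_plu_apply, this, Matrix.det_mul]
  rfl

theorem CB_plu_comp_perm (B : Matrix (Fin k) ι R) (I : Fin k → ι) (σ : Equiv.Perm (Fin k)) :
    cbPlu B (I ∘ σ) = (Equiv.Perm.sign σ : ℤ) * cbPlu B I := by
  have : B.submatrix id (I ∘ σ) = (B.submatrix id I).submatrix id σ := rfl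
  rw [CB_plu_apply, this, Matrix.det_permute']
  rfl

/-- rows permuted -/
theorem CB_det_submatrix_comp_perm_left (M : Matrix ι κ R) (I : Fin k → ι) (J : Fin k → κ)
    (σ : Equiv.Perm (Fin k)) :
    (M.submatrix (I ∘ σ) J).det = (Equiv.Perm.sign σ : ℤ) * (M.submatrix I J).det := by
  have : M.submatrix (I ∘ σ) J = (M.submatrix I J).submatrix σ id := rfl
  rw [this, Matrix.det_permute]

/-- expansion of the determinant of a product along all maps -/
theorem CB_det_mul_submatrix_eq_sum [Fintype ι] (B : Matrix (Fin k) ι R) (M : Matrix ι κ R)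
    (J : Fin k → κ) :
    ((B * M).submatrix id J).det = ∑ I : Fin k → ι, (∏ a, B a (I a)) * (M.submatrix I J).det := by
  classical
  rw [Matrix.det_apply']
  have h1 : ∀ σ : Equiv.Perm (Fin k), ∏ a, ((B * M).submatrix id J) (σ a) a =
      ∑ I : Fin k → ι, ∏ a, (B (σ a) (I a) * M (I a) (J a)) := by
    intro σ
    simp only [Matrix.submatrix_apply, id, Matrix.mul_apply]
    rw [Finset.prod_univ_sum]
    simp [Fintype.piFinset_univ]
  simp only [h1, Finset.mul_sum]
  rw [Finset.sum_comm]
  -- now: ∑ I ∑ σ sign σ * ∏ a B (σ a) (I a) * M (I a) (J a)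
  have h2 : ∀ σ : Equiv.Perm (Fin k), ∑ I : Fin k → ι,
      ((Equiv.Perm.sign σ : ℤ) : R) * ∏ a, (B (σ a) (I a) * M (I a) (J a)) =
      ∑ I : Fin k → ι, ((Equiv.Perm.sign σ : ℤ) : R) * ∏ a, (B a (I a) * M (I a) (J (σ⁻¹ a))) := by
    intro σ
    refine Fintype.sum_equiv (Equiv.arrowCongr σ (Equiv.refl ι)) _ _ (fun I => ?_)
    congr 1
    refine Fintype.prod_equiv σ _ _ (fun a => ?_)
    simp [Equiv.arrowCongr]
  rw [Finset.sum_comm]
  simp only [h2]
  rw [Finset.sum_comm]
  refine Finset.sum_congr rfl (fun I _ => ?_)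
  rw [Matrix.det_apply', Finset.mul_sum]
  refine Finset.sum_congr rfl (fun σ _ => ?_)
  simp only [Matrix.submatrix_apply, Finset.prod_mul_distrib]
  have h3 : ∏ a, M (I (σ a)) (J a) = ∏ a, M (I a) (J (σ⁻¹ a)) := by
    refine Fintype.prod_equiv σ _ _ (fun a => ?_)
    simp
  rw [h3]
  ring

/-- **Cauchy-Binet**, all-maps form -/
theorem CB_cauchy_binet [Fintype ι] (B : Matrix (Fin k) ι R) (M : Matrix ι κ R) (J : Fin k → κ) :
    (k.factorial : R) * ((B * M).submatrix id J).det =
      ∑ I : Fin k → ι, cbPlu B I * (M.submatrix I J).det := by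
  classical
  have h1 : ∀ I : Fin k → ι, cbPlu B I * (M.submatrix I J).det =
      ∑ σ : Equiv.Perm (Fin k), (∏ a, B a ((I ∘ ⇑σ⁻¹) a)) * (M.submatrix (I ∘ ⇑σ⁻¹) J).det := by
    intro I
    rw [CB_plu_apply, Matrix.det_apply', Finset.sum_mul]
    refine Finset.sum_congr rfl (fun σ _ => ?_)
    rw [CB_det_submatrix_comp_perm_left, Equiv.Perm.sign_inv]
    have h3 : ∏ a, (B.submatrix id I) (σ a) a = ∏ a, B a ((I ∘ ⇑σ⁻¹) a) := by
      refine Fintype.prod_equiv σ _ _ (fun a => ?_)
      simp
    rw [h3]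
    ring
  simp only [h1]
  rw [Finset.sum_comm]
  have h2 : ∀ σ : Equiv.Perm (Fin k), ∑ I : Fin k → ι,
      (∏ a, B a ((I ∘ ⇑σ⁻¹) a)) * (M.submatrix (I ∘ ⇑σ⁻¹) J).det =
      ((B * M).submatrix id J).det := by
    intro σ
    rw [CB_det_mul_submatrix_eq_sum]
    exact Fintype.sum_equiv (Equiv.arrowCongr σ (Equiv.refl ι)) _ _ (fun I => rfl)
  simp only [h2]
  rw [Finset.sum_const, Finset.card_univ, Fintype.card_perm, Fintype.card_fin, nsmul_eq_mul]

/-- Cauchy-Binet for Pluecker vectors -/
theorem CB_plu_mul_right [Fintype ι] (B : Matrix (Fin k) ι R) (M : Matrix ι κ R) (J : Fin k → κ) :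
    (k.factorial : R) * cbPlu (B * M) J = ∑ I : Fin k → ι, cbPlu B I * (M.submatrix I J).det :=
  CB_cauchy_binet B M J

/-- functoriality of compound matrices -/
theorem CB_compound_mul [Fintype κ] (M : Matrix ι κ R) (L : Matrix κ τ R) (I : Fin k → ι)
    (I' : Fin k → τ) :
    (k.factorial : R) * ((M * L).submatrix I I').det =
      ∑ J : Fin k → κ, (M.submatrix I J).det * (L.submatrix J I').det := by
  have h := CB_cauchy_binet (M.submatrix I id) L I'
  have e1 : ((M.submatrix I id) * L).submatrix id I' = (M * L).submatrix I I' := by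
    ext a b
    simp [Matrix.mul_apply]
  rw [e1] at h
  rw [h]
  rfl

/-- antisymmetric tensors -/
def CB_IsAlt (w : (Fin k → ι) → R) : Prop :=
  ∀ (I : Fin k → ι) (σ : Equiv.Perm (Fin k)), w (I ∘ σ) = (Equiv.Perm.sign σ : ℤ) * w I

theorem CB_isAlt_plu (B : Matrix (Fin k) ι R) : CB_IsAlt (cbPlu B) := fun I σ => CB_plu_comp_perm B I σ

/-- the compound of the identity matrix acts as `k!` on antisymmetric tensors -/
theorem CB_sum_alt_mul_det_one [Fintype ι] [DecidableEq ι] (w : (Fin k → ι) → R) (hw : CB_IsAlt w)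
    (I' : Fin k → ι) :
    ∑ I : Fin k → ι, w I * ((1 : Matrix ι ι R).submatrix I I').det = (k.factorial : R) * w I' := by
  classical
  have h1 : ∀ I : Fin k → ι, w I * ((1 : Matrix ι ι R).submatrix I I').det =
      ∑ σ : Equiv.Perm (Fin k), if I ∘ σ = I' then w I' else 0 := by
    intro I
    rw [Matrix.det_apply', Finset.mul_sum]
    refine Finset.sum_congr rfl (fun σ _ => ?_)
    simp only [Matrix.submatrix_apply, Matrix.one_apply]
    rw [Finset.prod_ite_zero]
    by_cases h : I ∘ σ = I'
    · have h' : ∀ i ∈ (Finset.univ : Finset (Fin k)), I (σ i) = I' i := fun i _ => congrFun h i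
      rw [if_pos h', if_pos h, ← h, hw I σ]
      simp only [Finset.prod_const_one, mul_one]
      have hs : ((Equiv.Perm.sign σ : ℤ) : R) * ((Equiv.Perm.sign σ : ℤ) : R) = 1 := by
        rw [← Int.cast_mul, ← Units.val_mul, Int.units_mul_self]
        simp
      ring
    · have h' : ¬ ∀ i ∈ (Finset.univ : Finset (Fin k)), I (σ i) = I' i :=
        fun hh => h (funext fun i => hh i (Finset.mem_univ i))
      rw [if_neg h', if_neg h]
      simp
  simp only [h1]
  rw [Finset.sum_comm]
  have h2 : ∀ σ : Equiv.Perm (Fin k),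
      ∑ I : Fin k → ι, (if I ∘ σ = I' then w I' else 0) = w I' := by
    intro σ
    rw [Finset.sum_eq_single (I' ∘ ⇑σ⁻¹)]
    · rw [if_pos]
      funext a
      simp
    · intro I _ hI
      rw [if_neg]
      intro h
      apply hI
      rw [← h]
      funext a
      simp
    · intro h
      exact absurd (Finset.mem_univ _) h
  simp only [h2]
  rw [Finset.sum_const, Finset.card_univ, Fintype.card_perm, Fintype.card_fin, nsmul_eq_mul]

section field

variable {K : Type*} [Field K]

theorem CB_exists_right_inverse_of_vecMul_injective [Fintype ι] [Fintype κ] [DecidableEq ι]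
    [DecidableEq κ] (M : Matrix ι κ K) (h : Function.Injective (fun x : ι → K => x ᵥ* M)) :
    ∃ L : Matrix κ ι K, M * L = 1 := by
  have hker : LinearMap.ker M.vecMulLinear = ⊥ := LinearMap.ker_eq_bot.mpr h
  obtain ⟨g, hg⟩ := M.vecMulLinear.exists_leftInverse_of_injective hker
  refine ⟨Matrix.of (fun j i => g (Pi.single j 1) i), ?_⟩
  have h1 : ∀ y : κ → K, y ᵥ* (Matrix.of (fun j i => g (Pi.single j 1) i)) = g y := by
    intro y
    have hy : y = ∑ j, y j • (Pi.single j (1 : K) : κ → K) := by
      funext a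
      simp [Finset.sum_apply, Pi.single_apply]
    conv_rhs => rw [hy, map_sum]
    funext i
    simp [Matrix.vecMul, dotProduct, Finset.sum_apply]
  ext i i'
  have h2 : (M * Matrix.of (fun j i => g (Pi.single j 1) i)) i =
      (M i) ᵥ* (Matrix.of (fun j i => g (Pi.single j 1) i)) := by
    funext a
    simp [Matrix.mul_apply, Matrix.vecMul, dotProduct]
  have h3 : M i = M.vecMulLinear (Pi.single i 1) := by
    funext a
    simp [Matrix.vecMul, dotProduct, Pi.single_apply]
  have h4 : g (M i) = Pi.single i 1 := by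
    rw [h3]
    exact congrArg (fun F : (ι → K) →ₗ[K] (ι → K) => F (Pi.single i 1)) hg
  rw [show (M * Matrix.of (fun j i => g (Pi.single j 1) i)) i i' =
    ((M * Matrix.of (fun j i => g (Pi.single j 1) i)) i) i' from rfl, h2, h1, h4]
  simp [Matrix.one_apply, Pi.single_apply, eq_comm]

/-- the compound matrix of an injective matrix is injective on antisymmetric tensors -/
theorem CB_alt_eq_zero_of_compound [CharZero K] [Fintype ι] [Fintype κ] [DecidableEq ι]
    [DecidableEq κ] (M : Matrix ι κ K) (h : Function.Injective (fun x : ι → K => x ᵥ* M))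
    (w : (Fin k → ι) → K) (hw : CB_IsAlt w)
    (h0 : ∀ J : Fin k → κ, ∑ I : Fin k → ι, w I * (M.submatrix I J).det = 0) : w = 0 := by
  obtain ⟨L, hL⟩ := CB_exists_right_inverse_of_vecMul_injective M h
  funext I'
  have h1 : ∑ J : Fin k → κ, (∑ I : Fin k → ι, w I * (M.submatrix I J).det) *
      (L.submatrix J I').det = 0 := by
    simp [h0]
  have h2 : ∑ J : Fin k → κ, (∑ I : Fin k → ι, w I * (M.submatrix I J).det) *
      (L.submatrix J I').det = (k.factorial : K) * ((k.factorial : K) * w I') := by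
    simp only [Finset.sum_mul]
    rw [Finset.sum_comm]
    have h3 : ∀ I : Fin k → ι, ∑ J : Fin k → κ, w I * (M.submatrix I J).det *
        (L.submatrix J I').det = (k.factorial : K) *
          (w I * ((1 : Matrix ι ι K).submatrix I I').det) := by
      intro I
      have := CB_compound_mul M L I I'
      rw [hL] at this
      calc ∑ J : Fin k → κ, w I * (M.submatrix I J).det * (L.submatrix J I').det
          = w I * ∑ J : Fin k → κ, (M.submatrix I J).det * (L.submatrix J I').det := by
            rw [Finset.mul_sum]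
            exact Finset.sum_congr rfl (fun J _ => by ring)
        _ = _ := by rw [← this]; ring
    simp only [h3]
    rw [← Finset.mul_sum, CB_sum_alt_mul_det_one w hw]
  rw [h2] at h1
  have hk : (k.factorial : K) ≠ 0 := Nat.cast_ne_zero.mpr (Nat.factorial_ne_zero k)
  simpa [hk] using h1

theorem CB_plu_ne_zero [CharZero K] [Fintype ι] [DecidableEq ι] (B : Matrix (Fin k) ι K)
    (hB : LinearIndependent K B.row) : cbPlu B ≠ 0 := by
  intro h0
  have hinj : Function.Injective (fun x : Fin k → K => x ᵥ* B) := by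
    have := (Matrix.vecMul_injective_iff (M := B)).mpr hB
    exact this
  obtain ⟨L, hL⟩ := CB_exists_right_inverse_of_vecMul_injective B hinj
  have h := CB_cauchy_binet B L id
  rw [hL, h0] at h
  simp at h
  exact Nat.factorial_ne_zero k h

end field

end Fermat.Agent.S17Lib
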