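import Fermat.Agent.S18.RiemannLower
import Fermat.Agent.S18.FiniteFT
import Fermat.Agent.S28.Transfer
import Fermat.Agent.S24.PlaceOfOrder
import Fermat.Agent.ES.KDefs
import Fermat.Agent.S17.Geo.Reduced
import Fermat.Agent.S17.Geo.RatBasis

/-!
# S17 FRAME-CURVE, part 1: the cusp `∞`, the Galois action, rational divisors, the rational
Riemann-Roch spaces `ratL N D ⊆ ℚ((q))`.
-/

set_option autoImplicit false
set_option synthInstance.maxHeartbeats 400000
set_option linter.unusedSectionVars false

open AlgebraicCurve ModularCurve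
  Fermat.Agent.S24Lib Fermat.Agent.FFLib Fermat.Agent.S18Lib Fermat.Agent.S28Lib Fermat.Agent.ESLib

namespace Fermat.Agent.S17Lib

noncomputable section

variable (N : ℕ) [NeZero N]

theorem exists_pInf : ∃ v : Place Qb (FB N),
    ∀ f : FB N, f ≠ 0 → v.ord f = (f : LaurentSeries Qb).order := by
  have hne : ∀ f : FB N, f ≠ 0 → (f : LaurentSeries Qb) ≠ 0 := fun f hf h => hf (Subtype.ext h)
  obtain ⟨v, m, hm, hv⟩ : ∃ (v : Place Qb (FB N)) (m : ℕ), 0 < m ∧
      ∀ f : FB N, f ≠ 0 → (f : LaurentSeries Qb).order = m * v.ord f := by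
    refine exists_place_of_order (K := Qb) (fun f : FB N => (f : LaurentSeries Qb).order)
      ?_ ?_ ?_ ?_
    · intro f g hf hg
      exact HahnSeries.order_mul (hne f hf) (hne g hg)
    · intro f g _ _ hfg
      exact HahnSeries.min_order_le_order_add (hne _ hfg)
    · intro a _
      change (algebraMap Qb (LaurentSeries Qb) a).order = 0
      rw [algebraMap_eq_C]
      exact HahnSeries.order_C
    · refine ⟨jBar N, ?_, ?_⟩
      · intro h
        have h1 := congrArg (fun f : FB N => (f : LaurentSeries Qb).order) h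
        simp only [ff_coe_jBar, order_jqModC] at h1
        simp at h1
      · change ((jBar N : FB N) : LaurentSeries Qb).order ≠ 0
        rw [ff_coe_jBar, order_jqModC]
        norm_num
  have hj0 : jBar N ≠ 0 := by
    intro h
    have h1 := congrArg (fun f : FB N => (f : LaurentSeries Qb).order) h
    simp only [ff_coe_jBar, order_jqModC] at h1
    simp at h1
  have h1 := hv (jBar N) hj0
  rw [ff_coe_jBar, order_jqModC] at h1
  have hm1 : (m : ℤ) = 1 := by
    have h2 : (m : ℤ) ∣ 1 := ⟨-(v.ord (jBar N)), by linarith⟩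
    have h3 : (0 : ℤ) ≤ m := by positivity
    exact Int.eq_one_of_dvd_one h3 h2
  refine ⟨v, fun f hf => ?_⟩
  rw [hv f hf, hm1, one_mul]

/-- the place of the cusp `∞` -/
def pInf : Place Qb (FB N) := (exists_pInf N).choose

theorem pInf_ord {f : FB N} (hf : f ≠ 0) : (pInf N).ord f = (f : LaurentSeries Qb).order :=
  (exists_pInf N).choose_spec f hf

/-- the semilinear automorphism of `FB N` attached to `σ` -/
abbrev gS (σ : GQ) : SemilinearAut Qb (FB N) := arithmeticGalois (modularFunctionFieldFull N) σ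

theorem coe_gS_smul (σ : GQ) (f : FB N) :
    ((gS N σ • f : FB N) : LaurentSeries Qb) = coeffMap (σ : Qb →+* Qb) (f : LaurentSeries Qb) :=
  rfl

theorem order_coeffMap_equiv (σ : GQ) (f : LaurentSeries Qb) :
    (coeffMap (σ : Qb →+* Qb) f).order = f.order := by
  by_cases hf : f = 0
  · simp [hf]
  have hf' : coeffMap (σ : Qb →+* Qb) f ≠ 0 := by
    intro h
    apply hf
    ext n
    have := congrArg (fun g : LaurentSeries Qb => g.coeff n) h
    simpa [coeffMap_coeff] using this
  apply le_antisymm
  · apply HahnSeries.order_le_of_coeff_ne_zero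
    rw [coeffMap_coeff]
    simpa using (mt HahnSeries.coeff_order_eq_zero.mp hf)
  · apply HahnSeries.order_le_of_coeff_ne_zero
    have := mt HahnSeries.coeff_order_eq_zero.mp hf'
    rw [coeffMap_coeff] at this
    intro h0
    apply this
    rw [h0]
    simp

theorem gS_pInf (σ : GQ) : gS N σ • pInf N = pInf N := by
  symm
  apply place_ext_of_ord
  intro f hf
  by_cases hf0 : f = 0
  · simp [hf0]
  have h1 := SemilinearAut.ord_smul (gS N σ) (pInf N) ((gS N σ)⁻¹ • f)
  rw [smul_inv_smul] at h1
  rw [h1]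
  have hne : (gS N σ)⁻¹ • f ≠ 0 := by simpa using hf0
  rw [pInf_ord N hne]
  rw [pInf_ord N hf0] at hf
  have h2 : ((gS N σ)⁻¹ • f : FB N) = gS N σ⁻¹ • f := by
    rw [show gS N σ⁻¹ = (gS N σ)⁻¹ from map_inv _ σ]
  rw [h2, coe_gS_smul, order_coeffMap_equiv]
  exact hf

/-- rational (= Galois stable) divisors -/
def IsRatDiv (D : Divisor Qb (FB N)) : Prop := ∀ σ : GQ, gS N σ • D = D

end

end Fermat.Agent.S17Lib
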