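import Fermat.Agent.S17.Frame.RatL
import Fermat.Agent.S17.PL.MAbs

set_option autoImplicit false
set_option synthInstance.maxHeartbeats 400000
set_option linter.unusedSectionVars false
set_option linter.unusedVariables false

open AlgebraicCurve ModularCurve Height
  Fermat.Agent.S24Lib Fermat.Agent.FFLib Fermat.Agent.S18Lib Fermat.Agent.S28Lib Fermat.Agent.ESLib

namespace Fermat.Agent.S17Lib

noncomputable section

variable {e d d' k : ℕ}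

theorem TB_smul_eq (a : Qb) (x : LaurentSeries Qb) : a • x = HahnSeries.C a * x :=
  (HahnSeries.C_mul_eq_smul).symm

theorem TB_nzd (β₁ : Fin e → LaurentSeries ℚ) (β₂ : Fin d → LaurentSeries ℚ)
    (β₃ : Fin d' → LaurentSeries ℚ) (h₁ : LinearIndependent ℚ β₁) (h₂ : LinearIndependent ℚ β₂)
    (c : Fin e → Fin d → Fin d' → ℚ) (hc : ∀ a i, β₁ a * β₂ i = ∑ l, c a i l • β₃ l)
    (f : Fin e → Qb) (w : Fin d → Qb)
    (h : ∀ l, ∑ a, ∑ i, f a * w i * algebraMap ℚ Qb (c a i l) = 0) : f = 0 ∨ w = 0 := by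
  have hF : (∑ a, f a • cE (β₁ a)) * (∑ i, w i • cE (β₂ i)) = 0 := by
    rw [Finset.sum_mul_sum]
    have h1 : ∀ a i, (f a • cE (β₁ a)) * (w i • cE (β₂ i)) =
        ∑ l, HahnSeries.C (f a * w i * algebraMap ℚ Qb (c a i l)) * cE (β₃ l) := by
      intro a i
      have h2 : cE (β₁ a) * cE (β₂ i) = ∑ l, HahnSeries.C (algebraMap ℚ Qb (c a i l)) * cE (β₃ l) := by
        rw [← map_mul, hc, cE_sum]
        exact Finset.sum_congr rfl fun l _ => TB_smul_eq _ _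
      rw [TB_smul_eq, TB_smul_eq, mul_mul_mul_comm, h2, Finset.mul_sum]
      refine Finset.sum_congr rfl fun l _ => ?_
      rw [map_mul, map_mul]
      ring
    simp only [h1]
    have key : ∀ (X : Fin e → Fin d → Fin d' → LaurentSeries Qb),
        ∑ a, ∑ i, ∑ l, X a i l = ∑ l, ∑ a, ∑ i, X a i l := by
      intro X
      calc ∑ a, ∑ i, ∑ l, X a i l = ∑ a, ∑ l, ∑ i, X a i l :=
            Finset.sum_congr rfl (fun a _ => Finset.sum_comm)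
        _ = ∑ l, ∑ a, ∑ i, X a i l := Finset.sum_comm
    rw [key]
    refine Finset.sum_eq_zero fun l _ => ?_
    simp only [← Finset.sum_mul, ← map_sum]
    rw [h l, map_zero, zero_mul]
  rcases mul_eq_zero.mp hF with h0 | h0
  · left
    funext a
    exact Fintype.linearIndependent_iff.mp (linearIndependent_cE h₁) f h0 a
  · right
    funext a
    exact Fintype.linearIndependent_iff.mp (linearIndependent_cE h₂) w h0 a

/-- the multiplication `V₁ × V₂ → V₃` as a bilinear map -/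
def TB_mu (V₁ V₂ V₃ : Submodule ℚ (LaurentSeries ℚ)) (hmul : ∀ x ∈ V₁, ∀ y ∈ V₂, x * y ∈ V₃) :
    V₁ →ₗ[ℚ] V₂ →ₗ[ℚ] V₃ :=
  LinearMap.mk₂ ℚ (fun x y => ⟨(x : LaurentSeries ℚ) * (y : LaurentSeries ℚ), hmul _ x.2 _ y.2⟩)
    (fun x x' y => Subtype.ext (add_mul _ _ _))
    (fun a x y => Subtype.ext (smul_mul_assoc _ _ _))
    (fun x y y' => Subtype.ext (mul_add _ _ _))
    (fun a x y => Subtype.ext (mul_smul_comm _ _ _))

theorem TB_mu_coe (V₁ V₂ V₃ : Submodule ℚ (LaurentSeries ℚ))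
    (hmul : ∀ x ∈ V₁, ∀ y ∈ V₂, x * y ∈ V₃) (x : V₁) (y : V₂) :
    ((TB_mu V₁ V₂ V₃ hmul x y : V₃) : LaurentSeries ℚ) = x * y := rfl

/-- the multiplication table in given bases -/
def TB_tbl {V₁ V₂ V₃ : Submodule ℚ (LaurentSeries ℚ)} (hmul : ∀ x ∈ V₁, ∀ y ∈ V₂, x * y ∈ V₃)
    (β₁ : Module.Basis (Fin e) ℚ V₁) (β₂ : Module.Basis (Fin d) ℚ V₂)
    (β₃ : Module.Basis (Fin d') ℚ V₃) : Fin e → Fin d → Fin d' → ℚ :=
  fun a i l => β₃.equivFun (TB_mu V₁ V₂ V₃ hmul (β₁ a) (β₂ i)) l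

theorem TB_tbl_spec {V₁ V₂ V₃ : Submodule ℚ (LaurentSeries ℚ)}
    (hmul : ∀ x ∈ V₁, ∀ y ∈ V₂, x * y ∈ V₃)
    (β₁ : Module.Basis (Fin e) ℚ V₁) (β₂ : Module.Basis (Fin d) ℚ V₂)
    (β₃ : Module.Basis (Fin d') ℚ V₃) (a : Fin e) (i : Fin d) :
    ((β₁ a : V₁) : LaurentSeries ℚ) * ((β₂ i : V₂) : LaurentSeries ℚ) =
      ∑ l, TB_tbl hmul β₁ β₂ β₃ a i l • ((β₃ l : V₃) : LaurentSeries ℚ) := by
  have h := β₃.sum_equivFun (TB_mu V₁ V₂ V₃ hmul (β₁ a) (β₂ i))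
  have h2 := congrArg (Subtype.val) h
  rw [TB_mu_coe] at h2
  rw [← h2, Submodule.coe_sum]
  rfl

theorem TB_tbl_nzd {V₁ V₂ V₃ : Submodule ℚ (LaurentSeries ℚ)}
    (hmul : ∀ x ∈ V₁, ∀ y ∈ V₂, x * y ∈ V₃)
    (β₁ : Module.Basis (Fin e) ℚ V₁) (β₂ : Module.Basis (Fin d) ℚ V₂)
    (β₃ : Module.Basis (Fin d') ℚ V₃) (f : Fin e → Qb) (w : Fin d → Qb)
    (h : ∀ l, ∑ a, ∑ i, f a * w i * algebraMap ℚ Qb (TB_tbl hmul β₁ β₂ β₃ a i l) = 0) :
    f = 0 ∨ w = 0 :=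
  TB_nzd (fun a => ((β₁ a : V₁) : LaurentSeries ℚ)) (fun i => ((β₂ i : V₂) : LaurentSeries ℚ))
    (fun l => ((β₃ l : V₃) : LaurentSeries ℚ))
    (β₁.linearIndependent.map' V₁.subtype (Submodule.ker_subtype _))
    (β₂.linearIndependent.map' V₂.subtype (Submodule.ker_subtype _))
    _ (TB_tbl_spec hmul β₁ β₂ β₃) f w h

/-- coordinates of a product -/
theorem TB_equivFun_mu {V₁ V₂ V₃ : Submodule ℚ (LaurentSeries ℚ)}
    (hmul : ∀ x ∈ V₁, ∀ y ∈ V₂, x * y ∈ V₃)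
    (β₁ : Module.Basis (Fin e) ℚ V₁) (β₂ : Module.Basis (Fin d) ℚ V₂)
    (β₃ : Module.Basis (Fin d') ℚ V₃) (x : V₁) (y : V₂) :
    β₃.equivFun (TB_mu V₁ V₂ V₃ hmul x y) =
      Matrix.vecMul (β₂.equivFun y) (mulMat (TB_tbl hmul β₁ β₂ β₃) (β₁.equivFun x)) := by
  funext l
  conv_lhs => rw [← β₁.sum_equivFun x, ← β₂.sum_equivFun y]
  simp only [map_sum, map_smul, LinearMap.sum_apply, LinearMap.smul_apply, Finset.sum_apply,
    Pi.smul_apply, smul_eq_mul, Matrix.vecMul, dotProduct, mulMat, Matrix.of_apply, TB_tbl]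

/-- **(M)** for spaces of rational Laurent series with arbitrary bases. -/
theorem TB_M {V₁ V₂ V₃ : Submodule ℚ (LaurentSeries ℚ)}
    (hmul : ∀ x ∈ V₁, ∀ y ∈ V₂, x * y ∈ V₃)
    (β₁ : Module.Basis (Fin e) ℚ V₁) (β₂ : Module.Basis (Fin d) ℚ V₂)
    (β₃ : Module.Basis (Fin d') ℚ V₃) (k : ℕ) :
    ∃ C : ℝ, ∀ (f : V₁) (w : Fin k → V₂), f ≠ 0 → LinearIndependent ℚ w →
      |logHeight (pl (fun i => β₃.equivFun (TB_mu V₁ V₂ V₃ hmul f (w i))))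
        - (k * logHeight (β₁.equivFun f) + logHeight (pl (fun i => β₂.equivFun (w i))))| ≤ C := by
  obtain ⟨C, hC⟩ := M_abs (TB_tbl hmul β₁ β₂ β₃) (TB_tbl_nzd hmul β₁ β₂ β₃) k
  refine ⟨C, fun f w hf hw => ?_⟩
  have h1 := hC (β₁.equivFun f) (fun i => β₂.equivFun (w i))
    (by simpa using hf)
    (hw.map' β₂.equivFun.toLinearMap (LinearEquiv.ker _))
  simp only [TB_equivFun_mu hmul β₁ β₂ β₃]
  exact h1

end

end Fermat.Agent.S17Lib
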